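import Fermat.Agent.Carayol.Defs
import Fermat.Agent.Carayol.Field.Root
import Fermat.Agent.Level.Gamma0
import Fermat.Agent.Level.BaseChange

/-!
# Functions of level `q² M'` in the variable `q z`

Composition with `z ↦ z / q` sends functions of level `q² M'` to functions of level `q m` for
`M' ∣ m`, with the same coefficients at infinity.
-/

set_option autoImplicit false
set_option linter.style.haveILetI false
set_option linter.unusedSectionVars false
set_option synthInstance.maxHeartbeats 200000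
set_option maxHeartbeats 800000

noncomputable section

namespace FA.Carayol

open UpperHalfPlane hiding I
open Complex hiding Gamma
open CongruenceSubgroup HahnSeries ModularCurve FA.Level FA.ModField
open scoped MatrixGroups Manifold

/-- `z ↦ z / q`. -/
def divH (q : ℕ) [NeZero q] (z : ℍ) : ℍ :=
  ⟨(z : ℂ) / q, by
    rw [Complex.div_natCast_im]
    exact div_pos z.im_pos (by exact_mod_cast Nat.pos_of_ne_zero (NeZero.ne q))⟩

theorem coe_divH (q : ℕ) [NeZero q] (z : ℍ) : (divH q z : ℂ) = (z : ℂ) / q := rfl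

theorem isGoodMap_divH (q : ℕ) [NeZero q] : IsGoodMap (divH q) := by
  refine ⟨fun z => ⟨scaleH q z, UpperHalfPlane.ext ?_⟩, fun f hf => ?_⟩
  · rw [coe_divH, coe_scaleH, mul_div_cancel_left₀ _ (Nat.cast_ne_zero.2 (NeZero.ne q))]
  rw [UpperHalfPlane.mdifferentiable_iff] at hf ⊢
  have hq : (0 : ℝ) < q := by exact_mod_cast Nat.pos_of_ne_zero (NeZero.ne q)
  have hmaps : Set.MapsTo (fun w : ℂ => w / (q : ℂ)) {z | 0 < z.im} {z | 0 < z.im} := by
    intro w hw
    show 0 < (w / (q : ℂ)).im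
    rw [Complex.div_natCast_im]
    exact div_pos hw hq
  have hlin : DifferentiableOn ℂ (fun w : ℂ => w / (q : ℂ)) {z | 0 < z.im} :=
    (differentiable_id.div_const _).differentiableOn
  refine (hf.comp hlin hmaps).congr fun w hw => ?_
  simp only [Function.comp_apply, ofComplex_apply_of_im_pos hw]
  rw [ofComplex_apply_of_im_pos (show 0 < (w / (q : ℂ)).im by
    rw [Complex.div_natCast_im]; exact div_pos hw hq)]
  rfl

/-- Composition with `z ↦ z / q` on `Mer`. -/
def merDiv (q : ℕ) [NeZero q] : Mer →+* Mer := merComp (isGoodMap_divH q)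

theorem merDiv_merC (q : ℕ) [NeZero q] (c : ℂ) : merDiv q (merC c) = merC c :=
  merComp_merC _ c

variable {q : ℕ} [hq : Fact q.Prime] [NeZero q] {M' : ℕ}

/-- `(g z) / q = g' (z / q)` for the conjugate `g'`. -/
theorem divH_smul (g : gsp q M') (z : ℍ) :
    divH q ((g : SL(2, ℤ)) • z) = (zConj g : SL(2, ℤ)) • divH q z := by
  obtain ⟨e, he⟩ := g.2.1
  have hq0 : (q : ℂ) ≠ 0 := Nat.cast_ne_zero.2 (NeZero.ne q)
  have hb : (((g : SL(2, ℤ)) 0 1 / (q : ℤ) : ℤ) : ℂ) = (e : ℂ) := by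
    rw [he, Int.mul_ediv_cancel_left _ (Int.natCast_ne_zero.mpr (NeZero.ne q))]
  apply UpperHalfPlane.ext
  rw [coe_divH, coe_smul_int, coe_smul_int, coe_divH]
  simp only [zConj, Matrix.SpecialLinearGroup.coe_mk, Matrix.of_apply, Matrix.cons_val',
    Matrix.cons_val_zero, Matrix.cons_val_one, Matrix.empty_val', Matrix.cons_val_fin_one]
  rw [hb, show (((g : SL(2, ℤ)) 0 1 : ℤ) : ℂ) = (q : ℂ) * e by rw [he]; push_cast; rfl]
  push_cast
  have h1 := smul_denom_ne (g : SL(2, ℤ)) z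
  field_simp

theorem merSL_merDiv (g : gsp q M') (x : Mer) :
    merSL (g : SL(2, ℤ)) (merDiv q x) = merDiv q (merSL (zConj g : SL(2, ℤ)) x) := by
  have h : (merSL (g : SL(2, ℤ))).comp (merDiv q) =
      (merDiv q).comp (merSL (zConj g : SL(2, ℤ))) := ringHom_mer_ext fun f => by
    rw [RingHom.comp_apply, RingHom.comp_apply, merDiv, merComp_toMer, merSL_toMer, merSL_toMer,
      merComp_toMer]
    exact congrArg toMer (Subtype.ext (funext fun z =>
      congrArg (f : ℍ → ℂ) (divH_smul g z)))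
  exact RingHom.congr_fun h x

/-- `(g z) / q` is `δ (q z)` or `δ ((z + β) / q)`. -/
theorem exists_divH_upper (g : SL(2, ℤ)) :
    ∃ δ : SL(2, ℤ), (∀ z, divH q (g • z) = δ • scaleH q z) ∨
      ∃ β : ℤ, ∀ z, divH q (g • z) = δ • divH q (ModularGroup.T ^ β • z) := by
  have hdet : g 0 0 * g 1 1 - g 0 1 * g 1 0 = 1 := by
    have := g.det_coe; rwa [Matrix.det_fin_two] at this
  have hq0 : (q : ℂ) ≠ 0 := Nat.cast_ne_zero.2 (NeZero.ne q)
  by_cases hd : (q : ℤ) ∣ g 0 0
  · obtain ⟨p, hp⟩ := hd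
    let δ : SL(2, ℤ) := ⟨!![p, g 0 1; g 1 0, (q : ℤ) * g 1 1], by
      rw [Matrix.det_fin_two_of]; rw [hp] at hdet; linear_combination hdet⟩
    refine ⟨δ, Or.inl fun z => ?_⟩
    apply UpperHalfPlane.ext
    rw [coe_divH, coe_smul_int, coe_smul_int, coe_scaleH]
    simp only [δ, Matrix.of_apply, Matrix.cons_val',
      Matrix.cons_val_zero, Matrix.cons_val_one, Matrix.empty_val', Matrix.cons_val_fin_one]
    rw [show ((g 0 0 : ℤ) : ℂ) = (q : ℂ) * p by rw [hp]; push_cast; rfl]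
    push_cast
    have h1 := smul_denom_ne g z
    field_simp
  · obtain ⟨u, w, huw⟩ : IsCoprime (g 0 0) (q : ℤ) :=
      ((Nat.prime_iff_prime_int.mp hq.out).coprime_iff_not_dvd.mpr hd).symm
    set β : ℤ := u * g 0 1
    set t : ℤ := w * g 0 1
    let δ : SL(2, ℤ) := ⟨!![g 0 0, t; (q : ℤ) * g 1 0, g 1 1 - g 1 0 * β], by
      rw [Matrix.det_fin_two_of]
      linear_combination hdet - g 1 0 * g 0 1 * huw⟩
    refine ⟨δ, Or.inr ⟨β, fun z => ?_⟩⟩
    have hb : ((g 0 1 : ℤ) : ℂ) = (g 0 0 : ℂ) * β + (q : ℂ) * t := by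
      have : g 0 1 = g 0 0 * β + (q : ℤ) * t := by
        simp only [β, t]; linear_combination -(g 0 1) * huw
      rw [this]; push_cast; rfl
    apply UpperHalfPlane.ext
    rw [coe_divH, coe_smul_int, coe_smul_int, coe_divH, ModularGroup.coe_T_zpow_smul_eq]
    simp only [δ, Matrix.of_apply, Matrix.cons_val',
      Matrix.cons_val_zero, Matrix.cons_val_one, Matrix.empty_val', Matrix.cons_val_fin_one]
    have h1 := smul_denom_ne g z
    rw [hb]
    push_cast
    field_simp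
    ring

variable [NeZero (q * q * M')] {m : ℕ} [NeZero (q * m)]

local notation "V" => lvlGamma0 (q * q * M')

theorem gamma_le_gsp_mul (hM : M' ∣ m) : Gamma (q * m) ≤ gsp q M' := by
  intro g hg
  rw [Gamma_mem] at hg
  have h1 := (ZMod.intCast_zmod_eq_zero_iff_dvd _ _).mp hg.2.1
  have h2 := (ZMod.intCast_zmod_eq_zero_iff_dvd _ _).mp hg.2.2.1
  exact ⟨dvd_trans ⟨m, by push_cast; ring⟩ h1,
    (Int.natCast_dvd_natCast.2 (Nat.mul_dvd_mul_left q hM)).trans h2⟩

/-- A function of the level, at `z / q`. -/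
def divFun (a : (V).alg ℂ) : holSub := holComp (isGoodMap_divH q) (genHol a)

theorem divFun_apply (a : (V).alg ℂ) (z : ℍ) :
    ((divFun a : holSub) : ℍ → ℂ) z = (V).funHom ℂ a (divH q z) := rfl

theorem divFun_exp (a : (V).alg ℂ) :
    HasExp (qp (q * m)) ((divFun a : holSub) : ℍ → ℂ)
      (haveI : NeZero m := ⟨fun h => NeZero.ne (q * m) (by rw [h, mul_zero])⟩
       qExpand ℂ m (a : LaurentSeries ℂ)) := by
  haveI : NeZero m := ⟨fun h => NeZero.ne (q * m) (by rw [h, mul_zero])⟩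
  have h := (V).funHom_exp ℂ a
  rw [Algebra.algebraMap_self, coeffMap_id] at h
  have h' := h.comp (U := qp (q * m)) (divH q) m 1 (fun z => by
    rw [Units.val_one, one_mul, qp_eq, qp_eq, ← Complex.exp_nat_mul, coe_divH]
    congr 1
    have : (m : ℂ) ≠ 0 := Nat.cast_ne_zero.2 (NeZero.ne m)
    have : (q : ℂ) ≠ 0 := Nat.cast_ne_zero.2 (NeZero.ne q)
    push_cast
    field_simp)
  rwa [twist_one_apply] at h'

theorem divFun_mem (hM : M' ∣ m) (a : (V).alg ℂ) :
    divFun a ∈ rN (q * m) (⊤ : Subfield ℂ) := by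
  have hmf := (V).funHom_mem ℂ a
  have hinv : ∀ γ ∈ Gamma (q * m), ∀ z,
      ((divFun a : holSub) : ℍ → ℂ) (γ • z) = ((divFun a : holSub) : ℍ → ℂ) z := fun γ hγ z => by
    rw [divFun_apply, divFun_apply, divH_smul ⟨γ, gamma_le_gsp_mul hM hγ⟩ z]
    exact hmf.2.1 _ (zConj ⟨γ, gamma_le_gsp_mul hM hγ⟩).2 _
  refine mem_rN_top hinv fun g => ?_
  haveI : NeZero (q * (V).M) := ⟨Nat.mul_ne_zero (NeZero.ne q) (V).M_ne⟩
  haveI : NeZero (q * m * (q * (V).M)) := ⟨Nat.mul_ne_zero (NeZero.ne _) (NeZero.ne _)⟩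
  have hper : ∀ z, ((divFun a : holSub) : ℍ → ℂ) (g • ModularGroup.T ^ ((q * m : ℕ) : ℤ) • z) =
      ((divFun a : holSub) : ℍ → ℂ) (g • z) := fun z => by
    have hT : ModularGroup.T ^ ((q * m : ℕ) : ℤ) ∈ Gamma (q * m) := by
      rw [Gamma_mem, ModularGroup.coe_T_zpow]
      exact ⟨by simp, (ZMod.intCast_zmod_eq_zero_iff_dvd _ _).2 dvd_rfl, by simp, by simp⟩
    rw [← hinv _ (smul_Gamma_conj g hT) (g • z)]
    simp only [← mul_smul, inv_mul_cancel_right]
  have hqC : (q : ℂ) ≠ 0 := Nat.cast_ne_zero.2 (NeZero.ne q)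
  have hMC : (((V).M : ℕ) : ℂ) ≠ 0 := Nat.cast_ne_zero.2 (V).M_ne
  obtain ⟨δ, hδ⟩ := exists_divH_upper (q := q) g
  obtain ⟨S, hS⟩ := hmf.2.2.2 δ
  obtain ⟨S', hS'⟩ : ∃ S', HasExp (qp (q * m * (q * (V).M)))
      (fun z => ((divFun a : holSub) : ℍ → ℂ) (g • z)) S' := by
    rcases hδ with hδ | ⟨β, hδ⟩
    · haveI : NeZero (q * m * q * q) :=
        ⟨Nat.mul_ne_zero (Nat.mul_ne_zero (NeZero.ne _) (NeZero.ne q)) (NeZero.ne q)⟩
      refine ⟨_, (hS.comp (U := qp (q * m * (q * (V).M))) (scaleH q) (q * m * q * q) 1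
        fun z => ?_).congr (funext fun z => ?_)⟩
      · rw [Units.val_one, one_mul, qp_eq, qp_eq, ← Complex.exp_nat_mul, coe_scaleH]
        congr 1
        have : (m : ℂ) ≠ 0 := Nat.cast_ne_zero.2 fun h => NeZero.ne (q * m) (by rw [h, mul_zero])
        push_cast
        field_simp
      · show (V).funHom ℂ a _ = (V).funHom ℂ a _
        rw [hδ]
    · refine ⟨_, (hS.comp (U := qp (q * m * (q * (V).M)))
        (fun z => divH q (ModularGroup.T ^ β • z)) (q * m)
        (Units.mk0 (Complex.exp (2 * Real.pi * Complex.I * β / ((q : ℂ) * ((V).M : ℕ))))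
          (Complex.exp_ne_zero _)) fun z => ?_).congr (funext fun z => ?_)⟩
      · rw [Units.val_mk0, qp_eq, qp_eq, ← Complex.exp_nat_mul, ← Complex.exp_add, coe_divH,
          ModularGroup.coe_T_zpow_smul_eq]
        congr 1
        have : (m : ℂ) ≠ 0 := Nat.cast_ne_zero.2 fun h => NeZero.ne (q * m) (by rw [h, mul_zero])
        push_cast
        field_simp
        ring
      · show (V).funHom ℂ a _ = (V).funHom ℂ a _
        rw [hδ]
  exact exp_of_multiple hS' hper

/-- The function at `z / q` lies in the field of level `q m`, with the same coefficients. -/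
theorem exists_merDiv_flN (hM : M' ∣ m) [NeZero m] (f : (V).fld ℂ) :
    ∃ x : flN (q * m) (⊤ : Subfield ℂ), (x : Mer) = merDiv q (theta f) ∧
      coeffMap (⊤ : Subfield ℂ).subtype (ser x) = qExpand ℂ m (f : LaurentSeries ℂ) := by
  obtain ⟨a, b, hb, hab⟩ := (V).exists_fraction ℂ f
  let P : (V).alg ℂ → rN (q * m) (⊤ : Subfield ℂ) := fun c => ⟨divFun c, divFun_mem hM c⟩
  have hP : ∀ c, coeffMap (⊤ : Subfield ℂ).subtype (rSer (P c)) =
      qExpand ℂ m (c : LaurentSeries ℂ) := fun c =>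
    HasExp.unique (covers_qp _) (rSer_spec (P c)) (divFun_exp c)
  have hb0 : (b : LaurentSeries ℂ) ≠ 0 := fun h => hb (Subtype.ext h)
  have hPb : P b ≠ 0 := fun h => by
    have h1 := hP b
    rw [h, map_zero, map_zero, eq_comm, map_eq_zero_iff _ (qExpand_injective m)] at h1
    exact hb0 h1
  have h1 : merDiv q (theta f) * rMer (q * m) (⊤ : Subfield ℂ) (P b) =
      rMer (q * m) (⊤ : Subfield ℂ) (P a) := by
    have h2 : ∀ c, rMer (q * m) (⊤ : Subfield ℂ) (P c) = merDiv q (toMer (genHol c)) := fun c => by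
      rw [merDiv, merComp_toMer]; rfl
    rw [h2, h2, ← map_mul, ← theta_toFld, ← theta_toFld, ← map_mul, hab]
  refine ⟨⟨merDiv q (theta f), P a, P b, hPb, h1⟩, rfl, ?_⟩
  set x : flN (q * m) (⊤ : Subfield ℂ) := ⟨merDiv q (theta f), P a, P b, hPb, h1⟩
  have h3 : x * toFl (P b) = toFl (P a) := Subtype.ext h1
  have h4 := congrArg (fun y => coeffMap (⊤ : Subfield ℂ).subtype (ser y)) h3
  simp only [map_mul, show ∀ c, ser (toFl (P c)) = rSer (P c) from fun c => ser_rMer _, hP] at h4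
  have h5 : (f : LaurentSeries ℂ) * (b : LaurentSeries ℂ) = (a : LaurentSeries ℂ) :=
    congrArg Subtype.val hab
  rw [← h5, map_mul] at h4
  exact mul_right_cancel₀ ((map_ne_zero_iff _ (qExpand_injective m)).2 hb0) h4

end FA.Carayol

end
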