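import Fermat.Agent.Carayol.Front.Rational
import Fermat.Agent.Carayol.Front.Scale
import Fermat.Agent.Carayol.Const.Basic
import Fermat.Agent.Level.BaseChange
import Mathlib.RingTheory.Valuation.LocalSubring

/-!
# The divisor of the scaled function is divisible by `n` over the constants

A valuation ring over the constants extends to `Mer`; on the functions of level `q² M'` over `ℚ̄`
it is trivial or a place, where every order is taken by a function with coefficients fixed by
inertia.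
-/

set_option autoImplicit false
set_option linter.style.haveILetI false
set_option linter.unusedSectionVars false
set_option synthInstance.maxHeartbeats 200000
set_option maxHeartbeats 800000

noncomputable section

namespace FA.Carayol

open CongruenceSubgroup AlgebraicCurve ModularCurve FA.Level FA.LocalDef
open scoped MatrixGroups

local notation "Qb" => AlgebraicClosure ℚ

/-- A valuation ring of a subfield is the trace of one of the field. -/
theorem exists_valuationSubring_extend {L : Type*} [Field L] (F : Subfield L)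
    (V : ValuationSubring F) :
    ∃ B : ValuationSubring L, ∀ x : F, (x : L) ∈ B ↔ x ∈ V := by
  let φ : V →+* L := F.subtype.comp V.subtype
  have hinj : Function.Injective φ := Subtype.val_injective.comp Subtype.val_injective
  have hbij : Function.Bijective φ.rangeRestrict :=
    ⟨fun a b h => hinj (congrArg (fun t : φ.range => (t : L)) h), φ.rangeRestrict_surjective⟩
  let I : Ideal φ.range := (IsLocalRing.maximalIdeal V).map φ.rangeRestrict
  have hI : I ≠ ⊤ := fun h => (IsLocalRing.maximalIdeal.isMaximal V).ne_top (by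
    have h1 := congrArg (Ideal.comap φ.rangeRestrict) h
    rwa [Ideal.comap_map_of_bijective _ hbij, Ideal.comap_top] at h1)
  obtain ⟨B, hB, hBI⟩ := Ideal.image_subset_nonunits_valuationSubring I hI
  refine ⟨B, fun x => ⟨fun hx => ?_, fun hx => hB ⟨⟨x, hx⟩, rfl⟩⟩⟩
  by_contra hxV
  have hx0 : x ≠ 0 := fun h => hxV (h ▸ zero_mem V)
  have hinv : x⁻¹ ∈ V := (V.mem_or_inv_mem x).resolve_left hxV
  have hm : (⟨x⁻¹, hinv⟩ : V) ∈ IsLocalRing.maximalIdeal V := fun hu => hxV (by
    obtain ⟨w, hw⟩ := isUnit_iff_exists_inv.1 hu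
    have h1 := congrArg Subtype.val hw
    have h2 : (w : F) = x := by
      rw [MulMemClass.coe_mul, OneMemClass.coe_one, inv_mul_eq_one₀ hx0] at h1
      exact h1.symm
    rw [← h2]; exact w.2)
  have h1 := hBI ⟨_, Ideal.mem_map_of_mem _ hm, rfl⟩
  change ((x⁻¹ : F) : L) ∈ B.nonunits at h1
  rw [ValuationSubring.mem_nonunits_iff_or] at h1
  rcases h1 with h1 | h1
  · exact inv_ne_zero hx0 (Subtype.ext h1)
  · refine h1 ?_
    show ((x⁻¹ : F) : L)⁻¹ ∈ B
    rwa [← Subfield.coe_subtype, map_inv₀, inv_inv]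

variable [Algebra Qb ℂ]

/-- Algebraic constants lie in every valuation ring over the constants. -/
theorem merC_algebraMap_mem {B : ValuationSubring Mer} (hB : ∀ r : ℚ, merC (r : ℂ) ∈ B) (a : Qb) :
    merC (algebraMap Qb ℂ a) ∈ B := by
  let ψ : Qb →+* Mer := merC.comp (algebraMap Qb ℂ)
  have hint : IsIntegral ℚ a := (Algebra.IsAlgebraic.isAlgebraic a).isIntegral
  set P := (minpoly ℚ a).map (ψ.comp (algebraMap ℚ Qb))
  obtain ⟨Q, hQ, -, hQm⟩ := Polynomial.lifts_and_degree_eq_and_monic (f := B.subtype)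
    ((Polynomial.lifts_iff_coeff_lifts P).mpr fun i => ⟨⟨P.coeff i, by
      rw [Polynomial.coeff_map, RingHom.comp_apply, eq_ratCast, map_ratCast]
      simpa using hB ((minpoly ℚ a).coeff i)⟩, rfl⟩) ((minpoly.monic hint).map _)
  have hint' : IsIntegral B (ψ a) := ⟨Q, hQm, by
    rw [show algebraMap B Mer = B.subtype from rfl, ← Polynomial.eval_map, hQ, Polynomial.eval_map,
      ← Polynomial.hom_eval₂]
    show ψ (Polynomial.aeval a (minpoly ℚ a)) = 0
    rw [minpoly.aeval, map_zero]⟩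
  obtain ⟨y, hy⟩ := (IsIntegrallyClosed.isIntegral_iff (R := B) (K := Mer)).mp hint'
  show ψ a ∈ B
  rw [← hy]; exact y.2

variable {q : ℕ} [hq : Fact q.Prime] [NeZero q] {M' : ℕ} [NeZero (q * q * M')]
  {m : ℕ} [NeZero m] [NeZero (q * m)]

local notation "V₀" => lvlGamma0 (q * q * M')

/-- **Every valuation over the constants takes an `n`-th power of a value at `f`.** -/
theorem exists_root_value (hM : M' ∣ m) {h : ℕ} (hN : q * m = 2 * h) (hh : 2 ≤ h)
    {A : ValuationSubring Qb} (hζ : ∀ b : ℤ, FA.Mazur.Wp.eta (q * m) b ∈ constK A q)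
    {n : ℕ} (f₀ : (V₀).fld Qb) (hf₀ : f₀ ≠ 0)
    (hdiv : ∀ v : Place Qb ((V₀).fld Qb), (n : ℤ) ∣ v.ord f₀)
    (z : flN (q * m) (constK A q)) (hz : (z : Mer) = merDiv q (theta f₀))
    (V : ValuationSubring (flN (q * m) (constK A q)))
    (hV : ∀ c : constK A q, toFl (rC c) ∈ V) :
    ∃ g : flN (q * m) (constK A q), g ≠ 0 ∧ V.valuation z = V.valuation g ^ n := by
  obtain ⟨B, hB⟩ := exists_valuationSubring_extend (flN (q * m) (constK A q)) V
  have hBQ : ∀ r : ℚ, merC (r : ℂ) ∈ B := fun r =>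
    (hB (toFl (rC (r : constK A q)))).2 (hV _)
  set ψ : (V₀).fld Qb →+* Mer := (merDiv q).comp theta
  set W : ValuationSubring ((V₀).fld Qb) := B.comap ψ
  have hWc : ∀ a : Qb, algebraMap Qb ((V₀).fld Qb) a ∈ W := fun a => by
    show merDiv q (theta (algebraMap Qb _ a)) ∈ B
    rw [theta_algebraMap, merDiv_merC]
    exact merC_algebraMap_mem hBQ a
  obtain ⟨g₀, hg₀, hker, hcoef⟩ : ∃ g₀ : (V₀).fld Qb, g₀ ≠ 0 ∧
      (f₀ / g₀ ^ n ∈ W ∧ (f₀ / g₀ ^ n)⁻¹ ∈ W) ∧
      ∀ i, ((g₀ : (V₀).fld Qb) : LaurentSeries Qb).coeff i ∈ kur A := by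
    by_cases hW : W = ⊤
    · refine ⟨1, one_ne_zero, ⟨hW ▸ ValuationSubring.mem_top _, hW ▸ ValuationSubring.mem_top _⟩,
        fun i => ?_⟩
      rw [OneMemClass.coe_one, HahnSeries.coeff_one]
      split_ifs
      exacts [one_mem _, zero_mem _]
    set v := FA.Curve.toPlace ((V₀).isFunctionField Qb) W hWc hW
    obtain ⟨d, hd⟩ := hdiv v
    obtain ⟨g₀, hg₀, hord, hcoef⟩ := exists_fixed_ord ((V₀).isFunctionField Qb) A v d
    have h0 : v.ord (f₀ / g₀ ^ n) = 0 := by
      rw [div_eq_mul_inv, v.ord_mul hf₀ (inv_ne_zero (pow_ne_zero n hg₀)), v.ord_inv,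
        FA.ModField.place_ord_pow, hord, hd]
      ring
    exact ⟨g₀, hg₀, ⟨FA.ModField.mem_place_of_ord_nonneg v h0.ge,
      FA.ModField.mem_place_of_ord_nonneg v (by rw [v.ord_inv, h0, neg_zero])⟩, hcoef⟩
  obtain ⟨x, hx, hser⟩ := exists_merDiv_flN (q := q) hM (toC V₀ Qb g₀)
  rw [theta_toC] at hx
  have hxK : (x : Mer) ∈ flN (q * m) (constK A q) := by
    refine mem_flN_of_ser hN hh hζ x fun i => ?_
    have h1 := congrArg (fun s : LaurentSeries ℂ => s.coeff i) hser
    simp only [coeffMap_coeff, Subfield.coe_subtype] at h1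
    rw [h1]
    by_cases hi : (m : ℤ) ∣ i
    · obtain ⟨j, rfl⟩ := hi
      rw [qExpand_coeff_mul, coe_toC, coeffMap_coeff]
      exact ⟨_, kur_le_constL (hcoef j), rfl⟩
    · rw [qExpand_coeff_of_not_dvd m _ hi]; exact zero_mem _
  set g : flN (q * m) (constK A q) := ⟨x, hxK⟩
  have hg : g ≠ 0 := fun h => by
    have h0 : (g : Mer) = 0 := by rw [h, ZeroMemClass.coe_zero]
    have h1 : merDiv q (theta g₀) = 0 := hx.symm.trans h0
    exact (map_ne_zero (merDiv q)).2 ((map_ne_zero (theta (V := V₀) (L := Qb))).2 hg₀) h1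
  refine ⟨g, hg, ?_⟩
  set r := z / g ^ n
  have hr : (r : Mer) = ψ (f₀ / g₀ ^ n) := by
    rw [map_div₀, map_pow]
    show (z : Mer) / (x : Mer) ^ n = _
    rw [hz, hx]
    rfl
  have hr1 : r ∈ V := (hB r).1 (by rw [hr]; exact hker.1)
  have hr2 : r⁻¹ ∈ V := (hB r⁻¹).1 (by
    rw [show ((r⁻¹ : flN (q * m) (constK A q)) : Mer) = (r : Mer)⁻¹ from map_inv₀ (Subfield.subtype _) r,
      hr, ← map_inv₀]
    exact hker.2)
  have hz0 : z ≠ 0 := fun h => (map_ne_zero (merDiv q)).2
    ((map_ne_zero (theta (V := V₀) (L := Qb))).2 hf₀)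
    (hz.symm.trans (by rw [h, ZeroMemClass.coe_zero]))
  have hgn : g ^ n ≠ 0 := pow_ne_zero n hg
  have h1 := (V.valuation_le_one_iff r).2 hr1
  have h2 := (V.valuation_le_one_iff r⁻¹).2 hr2
  have hvr : 0 < V.valuation r := (Valuation.pos_iff _).2 (div_ne_zero hz0 hgn)
  have h3 : V.valuation r = 1 := le_antisymm h1 (by rw [map_inv₀] at h2; exact (inv_le_one₀ hvr).1 h2)
  rw [map_div₀, div_eq_one_iff_eq ((Valuation.ne_zero_iff _).2 hgn), map_pow] at h3
  exact h3

end FA.Carayol

end
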