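import Fermat.Agent.Carayol.Front.Normal
import Fermat.Agent.Carayol.Front.Orders
import Fermat.Agent.Carayol.Const.Main

/-!
# The interface between fixed classes with vanishing traces and functions of level `q m`
-/

set_option autoImplicit false
set_option linter.style.haveILetI false
set_option linter.unusedSectionVars false
set_option synthInstance.maxHeartbeats 200000
set_option maxHeartbeats 800000

noncomputable section

namespace FA.Carayol

open CongruenceSubgroup HahnSeries ModularCurve FA.Level FA.JTorsion FA.LocalDef FA.Mazur.Wp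
open scoped MatrixGroups

local notation "Qb" => AlgebraicClosure ℚ

variable [Algebra Qb ℂ] {q : ℕ} [hq : Fact q.Prime] {M' : ℕ} [NeZero (q * q * M')] {n : ℕ} [NeZero n]

/-- A translate of the root is multiplied by the conjugated character. -/
theorem merSL_translate {x : tors (lvlGamma0 (q * q * M')) Qb n} {H : Mer}
    (hH : ∀ γ : gsp q M', merSL (γ : SL(2, ℤ)) H =
      merC (ZMod.stdAddChar (kumFun x (zConj γ))) * H)
    (u g : SL(2, ℤ)) (hg : u * g * u⁻¹ ∈ gsp q M') :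
    merSL g (merSL u H) = merC (ZMod.stdAddChar (kumFun x (zConj ⟨_, hg⟩))) * merSL u H := by
  rw [← merSL_mul, show merSL (u * g) H = merSL ((u * g * u⁻¹) * u) H by rw [inv_mul_cancel_right],
    merSL_mul,
    hH ⟨_, hg⟩, map_mul, show merSL u (merC _) = merC _ from merComp_merC _ _]

theorem sq_mem_gamma {N : ℕ} (hN : 2 ∣ N) {γ : SL(2, ℤ)} (hγ : γ ∈ Gamma N) :
    γ * γ ∈ Gamma (2 * N) := by
  rw [Gamma_mem] at hγ
  obtain ⟨⟨a, ha⟩, ⟨b, hb⟩, ⟨c, hc⟩, ⟨d, hd⟩⟩ :=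
    And.intro ((ZMod.intCast_eq_intCast_iff_dvd_sub 1 _ N).mp (by rw [hγ.1, Int.cast_one]))
      (And.intro ((ZMod.intCast_zmod_eq_zero_iff_dvd _ _).mp hγ.2.1)
        (And.intro ((ZMod.intCast_zmod_eq_zero_iff_dvd _ _).mp hγ.2.2.1)
          ((ZMod.intCast_eq_intCast_iff_dvd_sub 1 _ N).mp (by rw [hγ.2.2.2, Int.cast_one]))))
  obtain ⟨h, hh⟩ := hN
  have ha' : γ 0 0 = 1 + (N : ℤ) * a := by linarith
  have hd' : γ 1 1 = 1 + (N : ℤ) * d := by linarith
  have hh' : (N : ℤ) = 2 * h := by exact_mod_cast hh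
  rw [Gamma_mem]
  simp only [Matrix.SpecialLinearGroup.coe_mul, Matrix.mul_apply, Fin.sum_univ_two, ha', hd', hb, hc]
  refine ⟨?_, (ZMod.intCast_zmod_eq_zero_iff_dvd _ _).mpr ?_,
    (ZMod.intCast_zmod_eq_zero_iff_dvd _ _).mpr ?_, ?_⟩
  · rw [eq_comm, ← Int.cast_one (R := ZMod (2 * N)), ZMod.intCast_eq_intCast_iff_dvd_sub]
    exact ⟨a + h * a * a + h * b * c, by push_cast; rw [hh']; ring⟩
  · exact ⟨b + h * a * b + h * b * d, by push_cast; rw [hh']; ring⟩
  · exact ⟨c + h * c * a + h * d * c, by push_cast; rw [hh']; ring⟩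
  · rw [eq_comm, ← Int.cast_one (R := ZMod (2 * N)), ZMod.intCast_eq_intCast_iff_dvd_sub]
    exact ⟨d + h * d * d + h * b * c, by push_cast; rw [hh']; ring⟩

/-- The traces: the squared product has a root in the field. -/
theorem exists_trace_root {m : ℕ} [NeZero m] [NeZero (q * m)] (hM : M' ∣ m) (h2 : 2 ∣ q * m)
    {h : ℕ} (hN : q * m = 2 * h) (hh : 2 ≤ h) {K : Subfield ℂ} (hζ : ∀ b : ℤ, eta (q * m) b ∈ K)
    (x : tors (lvlGamma0 (q * q * M')) Qb n) {H F : Mer} (hHn : H ^ n = F) (hF : F ∈ flN (q * m) K)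
    (hH : ∀ γ : gsp q M', merSL (γ : SL(2, ℤ)) H =
      merC (ZMod.stdAddChar (kumFun x (zConj γ))) * H)
    (u : ℕ → SL(2, ℤ))
    (hu : ∀ γ : Gamma (2 * q * M'),
      ∑ b ∈ Finset.range q, resTau (fun g => kumFun x g) (gConj (u b) γ) = 0) :
    ∃ c : K, c ≠ 0 ∧ ∃ y : flN (q * m) K,
      ∏ b ∈ Finset.range q, merSL (u b) (F ^ 2) = merC (c : ℂ) * (y : Mer) ^ n := by
  classical
  set R : Mer := ∏ b ∈ Finset.range q, merSL (u b) H with hR
  have hP : ∏ b ∈ Finset.range q, merSL (u b) (F ^ 2) = (R ^ 2) ^ n := by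
    rw [hR, ← pow_mul, mul_comm, pow_mul, ← Finset.prod_pow, ← Finset.prod_pow]
    exact Finset.prod_congr rfl fun b _ => by rw [← hHn, map_pow, map_pow]
  have hmul : ∀ g ∈ Gamma (q * m), ∃ ζ : ℂ, merSL g R = merC ζ * R := fun g hg => by
    have hc : ∀ b, u b * g * (u b)⁻¹ ∈ gsp q M' := fun b =>
      gamma_le_gsp_mul hM ((Gamma_normal (q * m)).conj_mem _ hg _)
    refine ⟨∏ b ∈ Finset.range q, ZMod.stdAddChar (kumFun x (zConj ⟨_, hc b⟩)), ?_⟩
    rw [hR, map_prod, map_prod, ← Finset.prod_mul_distrib]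
    exact Finset.prod_congr rfl fun b _ => merSL_translate hH _ _ (hc b)
  have hfix : ∀ g : SL(2, ℤ), g ∈ Gamma (2 * q * M') → merSL g R = R := fun g hg => by
    have h1 : ∀ s : Finset ℕ, merSL g (∏ b ∈ s, merSL (u b) H) =
        merC (ZMod.stdAddChar (∑ b ∈ s, resTau (fun g => kumFun x g) (gConj (u b) ⟨g, hg⟩))) *
          ∏ b ∈ s, merSL (u b) H := fun s => by
      induction s using Finset.induction with
      | empty => simp
      | @insert b s hb ih =>
        have hmem : u b * g * (u b)⁻¹ ∈ gsp q M' :=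
          gamma_le_gsp q M' ((Gamma_normal (2 * q * M')).conj_mem _ hg _)
        rw [Finset.prod_insert hb, map_mul, ih, merSL_translate hH _ _ hmem, Finset.sum_insert hb,
          AddChar.map_add_eq_mul, map_mul]
        show merC (ZMod.stdAddChar (resTau (fun g => kumFun x g) (gConj (u b) ⟨g, hg⟩))) * _ * _ = _
        ring
    rw [hR, h1, hu ⟨g, hg⟩, AddChar.map_zero_eq_one, map_one, one_mul]
  have hinv : ∀ g ∈ Gamma (q * m), merSL g (R ^ 2) = R ^ 2 := fun g hg => by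
    obtain ⟨ζ, hζ'⟩ := hmul g hg
    have hsq : g * g ∈ Gamma (2 * q * M') := by
      have h3 := sq_mem_gamma h2 hg
      rw [Gamma_mem] at h3 ⊢
      have hd : (2 * q * M') ∣ (2 * (q * m)) := by
        obtain ⟨k, rfl⟩ := hM
        exact ⟨k, by ring⟩
      refine ⟨?_, ?_, ?_, ?_⟩
      · exact (map_intCast (ZMod.castHom hd (ZMod (2 * q * M'))) _).symm.trans
          ((congrArg _ h3.1).trans (map_one _))
      · simpa using congrArg (ZMod.castHom hd (ZMod (2 * q * M'))) h3.2.1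
      · simpa using congrArg (ZMod.castHom hd (ZMod (2 * q * M'))) h3.2.2.1
      · exact (map_intCast (ZMod.castHom hd (ZMod (2 * q * M'))) _).symm.trans
          ((congrArg _ h3.2.2.2).trans (map_one _))
    have h4 := hfix _ hsq
    rw [merSL_mul, hζ', map_mul, show merSL g (merC ζ) = merC ζ from merComp_merC _ _, hζ',
      ← mul_assoc, ← sq] at h4
    rw [map_pow, hζ', mul_pow]
    rcases eq_or_ne R 0 with h0 | h0
    · simp [h0]
    · rw [mul_eq_right₀ h0] at h4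
      rw [h4, one_mul]
  have hPK : (R ^ 2) ^ n ∈ flN (q * m) K := by
    rw [← hP]
    exact prod_mem fun b _ => merSL_mem _ (pow_mem hF 2)
  obtain ⟨c, hc, hcn, y, hy⟩ :=
    exists_const_of_root hN hh hζ (NeZero.ne n) hPK hinv
  exact ⟨⟨c ^ n, hcn⟩, fun h0 => pow_ne_zero n hc (congrArg Subtype.val h0), y, by
    rw [hP, hy, mul_pow, map_pow]⟩

/-- Detection: an `e`-th power which is an `n`-th power kills a multiple of the class. -/
theorem nsmul_eq_zero_of_pow {m : ℕ} [NeZero m] [NeZero (q * m)] (hM : M' ∣ m) {K : Subfield ℂ}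
    (x : tors (lvlGamma0 (q * q * M')) Qb n) {H F : Mer} (hHn : H ^ n = F) (hF0 : F ≠ 0)
    (hH : ∀ γ : gsp q M', merSL (γ : SL(2, ℤ)) H =
      merC (ZMod.stdAddChar (kumFun x (zConj γ))) * H)
    {e : ℕ} {c : ℂ} {y : flN (q * m) K} (he : F ^ e = merC c * (y : Mer) ^ n) :
    ((Gamma (q * q * m)).index * e) • x = 0 := by
  have hn : n ≠ 0 := NeZero.ne n
  have hH0 : H ≠ 0 := fun h0 => hF0 (by rw [← hHn, h0, zero_pow hn])
  have hy0 : (y : Mer) ≠ 0 := fun h0 => pow_ne_zero e hF0 (by rw [he, h0, zero_pow hn, mul_zero])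
  have hc : c ≠ 0 := fun h0 => pow_ne_zero e hF0 (by rw [he, h0, map_zero, zero_mul])
  obtain ⟨d, hd, hd'⟩ := exists_merC_of_pow hn (x := H ^ e / (y : Mer)) hc (by
    rw [div_pow, ← pow_mul, mul_comm, pow_mul, hHn, he, mul_div_cancel_right₀ _ (pow_ne_zero n hy0)])
  rw [div_eq_iff hy0] at hd'
  have hzero : ∀ g : gsp q M', (g : SL(2, ℤ)) ∈ Gamma (q * m) →
      e • kumFun x (zConj g) = 0 := fun g hg => by
    apply ZMod.injective_stdAddChar (N := n)
    apply merC.injective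
    refine mul_right_cancel₀ (pow_ne_zero e hH0) ?_
    rw [AddChar.map_nsmul_eq_pow, AddChar.map_zero_eq_one, map_one, one_mul, map_pow, ← mul_pow,
      ← hH g, ← map_pow, hd', map_mul, merSL_eq_self hg y.2,
      show merSL (g : SL(2, ℤ)) (merC d) = merC d from merComp_merC _ _]
  apply kum_injective (lvlGamma0 (q * q * M')) Qb n
  rw [map_zero]
  refine AddMonoidHom.ext fun γ => ?_
  set C := (Gamma (q * q * m)).index
  haveI := Gamma_normal (q * q * m)
  have hpow : ((γ.toMul : (lvlGamma0 (q * q * M')).grp) : SL(2, ℤ)) ^ C ∈ Gamma (q * q * m) :=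
    Subgroup.pow_index_mem _ _
  set δ : SL(2, ℤ) := ((γ.toMul : (lvlGamma0 (q * q * M')).grp) : SL(2, ℤ)) ^ C with hδ
  have hδ' := Gamma_mem.mp hpow
  obtain ⟨b', hb'⟩ := (ZMod.intCast_zmod_eq_zero_iff_dvd _ _).mp hδ'.2.1
  obtain ⟨c', hc'⟩ := (ZMod.intCast_zmod_eq_zero_iff_dvd _ _).mp hδ'.2.2.1
  let g₀ : SL(2, ℤ) := ⟨!![δ 0 0, δ 0 1 * q; (q : ℤ) * m * c', δ 1 1], by
    have hdet := δ.det_coe
    rw [Matrix.det_fin_two, hc'] at hdet
    rw [Matrix.det_fin_two_of]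
    push_cast at hdet
    linear_combination hdet⟩
  have hd₁ : ((q * m : ℕ) : ℕ) ∣ q * q * m := ⟨q, by ring⟩
  have hg₀ : g₀ ∈ Gamma (q * m) := by
    rw [Gamma_mem]
    refine ⟨?_, (ZMod.intCast_zmod_eq_zero_iff_dvd _ _).mpr ?_,
      (ZMod.intCast_zmod_eq_zero_iff_dvd _ _).mpr ?_, ?_⟩
    · exact (map_intCast (ZMod.castHom hd₁ (ZMod (q * m))) _).symm.trans
        ((congrArg _ hδ'.1).trans (map_one _))
    · exact ⟨b' * q * q, by
        show δ 0 1 * (q : ℤ) = _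
        rw [hb']; push_cast; ring⟩
    · exact ⟨c', by show (q : ℤ) * m * c' = _; push_cast; ring⟩
    · exact (map_intCast (ZMod.castHom hd₁ (ZMod (q * m))) _).symm.trans
        ((congrArg _ hδ'.2.2.2).trans (map_one _))
  have hz : (zConj ⟨g₀, gamma_le_gsp_mul hM hg₀⟩ : (lvlGamma0 (q * q * M')).grp) =
      γ.toMul ^ C := by
    apply Subtype.ext
    rw [SubmonoidClass.coe_pow, ← hδ]
    apply Subtype.ext
    ext i j
    have hq0 : (q : ℤ) ≠ 0 := Int.natCast_ne_zero.mpr hq.out.ne_zero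
    fin_cases i <;> fin_cases j
    · rfl
    · show δ 0 1 * (q : ℤ) / (q : ℤ) = δ 0 1
      rw [Int.mul_ediv_cancel _ hq0]
    · show (q : ℤ) * m * c' * (q : ℤ) = δ 1 0
      rw [hc']; push_cast; ring
    · rfl
  rw [AddMonoidHom.zero_apply, map_nsmul, AddMonoidHom.nsmul_apply, mul_comm C e, mul_nsmul',
    ← map_nsmul, show C • γ = Additive.ofMul (γ.toMul ^ C) from rfl, kum_apply, ← hz]
  exact hzero ⟨g₀, gamma_le_gsp_mul hM hg₀⟩ hg₀

theorem frontEndHolds (q M' m : ℕ) [Fact q.Prime] [NeZero M'] [NeZero m] :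
    FrontEndHolds q M' m := by
  intro hqm hMm h2 h4 A hA _ _
  obtain ⟨h, hN⟩ := h2
  have hh : 2 ≤ h := by omega
  have hfacts := constHolds q A hA m (NeZero.ne m) hqm
  refine ⟨(Gamma (q * q * m)).index * 2, ?_, ?_⟩
  · haveI : NeZero (q * q * m) :=
      ⟨Nat.mul_ne_zero (Nat.mul_ne_zero (Fact.out : q.Prime).ne_zero (Fact.out : q.Prime).ne_zero)
        (NeZero.ne m)⟩
    exact Nat.mul_ne_zero Subgroup.FiniteIndex.index_ne_zero two_ne_zero
  intro n _ _ x hx htr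
  haveI : NeZero q := ⟨(Fact.out : q.Prime).ne_zero⟩
  obtain ⟨f, H₀, hf0, hHn₀, hchar, hcoef, g₁, hg₁, hg₁f, hg₁d⟩ := exists_normal_root x hx
  obtain ⟨xT, hxT, hser⟩ := exists_merDiv_flN (q := q) (M' := M') hMm f
  set F : Mer := merDiv q (theta f) with hF
  set H : Mer := merDiv q H₀ with hHdef
  have hF0 : F ≠ 0 :=
    (map_ne_zero_iff _ (merDiv q).injective).2 ((map_ne_zero_iff _ theta.injective).2 hf0)
  have hHn : H ^ n = F := by rw [hHdef, ← map_pow, hHn₀]
  have hH : ∀ γ : gsp q M', merSL (γ : SL(2, ℤ)) H =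
      merC (ZMod.stdAddChar (kumFun x (zConj γ))) * H := fun γ => by
    rw [hHdef, merSL_merDiv γ, ← merDiv_merC q, ← map_mul (merDiv q)]
    exact congrArg (merDiv q) (hchar (zConj γ))
  have hK0K : constK0 A ≤ constK A q := fun c ⟨z, hz, hzc⟩ => ⟨z, kur_le_constL hz, hzc⟩
  have hcoefT : ∀ i, (((ser xT).coeff i : (⊤ : Subfield ℂ)) : ℂ) ∈ constK0 A := fun i => by
    have h1 := congrArg (fun s : LaurentSeries ℂ => s.coeff i) hser
    simp only [coeffMap_coeff, Subfield.coe_subtype] at h1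
    rw [h1]
    by_cases hi : (m : ℤ) ∣ i
    · obtain ⟨j, rfl⟩ := hi
      rw [qExpand_coeff_mul]
      obtain ⟨t, ht, htc⟩ := hcoef j
      exact ⟨t, ht, htc⟩
    · rw [qExpand_coeff_of_not_dvd m _ hi]; exact zero_mem _
  have hFK : F ∈ flN (q * m) (constK A q) :=
    hxT ▸ mem_flN_of_ser hN hh hfacts.roots xT fun i => hK0K (hcoefT i)
  let z : flN (q * m) (constK A q) := ⟨F, hFK⟩
  have hz : ∀ i, (((ser z).coeff i : constK A q) : ℂ) ∈ constK0 A := fun i => by
    have h1 := ser_mono (le_top : constK A q ≤ ⊤) z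
    rw [show (⟨z.1, flN_mono le_top z.2⟩ : flN (q * m) (⊤ : Subfield ℂ)) = xT from
      Subtype.ext hxT.symm] at h1
    have h2 := hcoefT i
    rw [h1, coeffMap_coeff] at h2
    exact h2
  refine ⟨z ^ 2, pow_ne_zero 2 fun h0 => hF0 (congrArg Subtype.val h0), fun γ hγ => ?_,
    fun i => ?_, fun W hW => ?_, ?_, ?_, fun e he => ?_⟩
  · show merSL γ (F ^ 2) = F ^ 2
    rw [map_pow, hF, merSL_merDiv ⟨γ, hγ⟩, merSL_theta (zConj ⟨γ, hγ⟩).2]
  · obtain ⟨s, hs⟩ : ∃ s : LaurentSeries (constK0 A),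
        coeffMap (Subfield.inclusion hK0K) s = ser z :=
      ⟨⟨fun i => ⟨_, hz i⟩, (ser z).isPWO_support.mono fun i hi h0 => hi
        (Subtype.ext (show (((ser z).coeff i : constK A q) : ℂ) = 0 by rw [h0]; rfl))⟩,
        HahnSeries.ext (funext fun i => Subtype.ext rfl)⟩
    rw [map_pow, ← hs, ← map_pow, coeffMap_coeff]
    exact ((s ^ 2).coeff i).2
  · obtain ⟨g, hg, hgv⟩ := exists_root_value hMm hN hh hfacts.roots g₁ hg₁ hg₁d z
      (by show F = _; rw [hF, ← hg₁f, theta_toC]) W hW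
    exact ⟨g ^ 2, pow_ne_zero 2 hg, by rw [map_pow, map_pow, hgv, pow_right_comm]⟩
  · exact exists_trace_root hMm ⟨h, hN⟩ hN hh hfacts.roots x hHn hFK hH (fun b => upU b)
      fun γ => (htr γ).1
  · exact exists_trace_root hMm ⟨h, hN⟩ hN hh hfacts.roots x hHn hFK hH
      (fun b => lowU (b * M')) fun γ => (htr γ).2
  · obtain ⟨c, y, hcy⟩ := he
    have h1 := nsmul_eq_zero_of_pow hMm x hHn hF0 hH (e := 2 * e) (c := c) (y := y) (by
      rw [pow_mul]; exact hcy)
    rwa [← mul_assoc] at h1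

end FA.Carayol

end
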