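import Fermat.Agent.JTorsion.Descent
import Fermat.Agent.Level.Gamma0

/-!
# Divisibility of a divisor survives extension of the constants to `ℂ`
-/

set_option autoImplicit false
set_option linter.style.haveILetI false
set_option linter.unusedSectionVars false
set_option synthInstance.maxHeartbeats 200000
set_option maxHeartbeats 1600000

noncomputable section

namespace FA.Carayol

open UpperHalfPlane hiding I
open AlgebraicCurve ModularCurve FA.Level FA.ModField
open scoped MatrixGroups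

variable {V : Lvl}

/-- Every place over `ℂ` is read off by one of the embeddings, up to a positive factor. -/
theorem exists_emb_of_place (w : Place ℂ (V.fld ℂ)) :
    ∃ (P : LPar V) (γ : SL(2, ℤ)) (s : ℤ), 0 < s ∧
      ∀ g : V.fld ℂ, (emb P γ g).order = s * w.ord g := by
  rcases lt_or_ge (w.ord (V.jF ℂ)) 0 with h | h
  · obtain ⟨i, hi⟩ := (V.cuspFam ℂ).pl_surjective w (by rw [w.ord_inv]; omega)
    exact ⟨cuspPar V, _, _, (V.cuspFam ℂ).scale_pos i, fun g => hi ▸ (V.cuspFam ℂ).order_σ i g⟩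
  · obtain ⟨a, ha⟩ := exists_residue (V.cuspFam ℂ).isCurve w (mem_place_of_ord_nonneg w h)
    replace ha := ha.resolve_left fun heq =>
      V.jF_transcendental ℂ (heq ▸ isAlgebraic_algebraMap a)
    have key : ∀ (τ : ℍ) (g₀ : SL(2, ℤ)) (m : ℕ) (hτ : jfun τ = algebraMap ℂ ℂ a) (hg : g₀ • τ = τ)
        (hm : 0 < m) (hord : (jLocal τ).order = m)
        (hζ : IsPrimitiveRoot (rotUnit g₀ τ : ℂ) m),
        ∃ (P : LPar V) (γ : SL(2, ℤ)) (s : ℤ), 0 < s ∧
          ∀ g : V.fld ℂ, (emb P γ g).order = s * w.ord g := fun τ g₀ m hτ hg hm hord hζ => by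
      obtain ⟨i, hi⟩ := (V.pointFam ℂ a τ hτ g₀ hg m hm hord hζ).pl_surjective w ha
      exact ⟨pointPar V τ, _, _, (V.pointFam ℂ a τ hτ g₀ hg m hm hord hζ).scale_pos i,
        fun g => hi ▸ (V.pointFam ℂ a τ hτ g₀ hg m hm hord hζ).order_σ i g⟩
    rcases eq_or_ne a 0 with rfl | h0
    · obtain ⟨g₀, hg₀⟩ : ∃ g : SL(2, ℤ), g = ModularGroup.S * ModularGroup.T := ⟨_, rfl⟩
      exact key rho g₀ 3 (by rw [jfun_rho, map_zero]) (hg₀ ▸ ST_smul_rho) (by norm_num)
        order_jLocal_rho (rotUnit_rho hg₀)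
    rcases eq_or_ne a 1728 with rfl | h1
    · exact key UpperHalfPlane.I ModularGroup.S 2 (by rw [jfun_I, map_ofNat]) S_smul_I
        (by norm_num) order_jLocal_I rotUnit_I
    obtain ⟨τ, hτ⟩ := exists_jfun_eq (algebraMap ℂ ℂ a)
    have hj0 : jfun τ ≠ 0 := by rw [hτ]; exact (_root_.map_ne_zero _).2 h0
    have hj1 : jfun τ ≠ 1728 := by
      rw [hτ, Algebra.algebraMap_self, RingHom.id_apply]; exact h1
    exact key τ 1 1 hτ (one_smul _ τ) one_pos (order_jLocal_general hj0 hj1) (rotUnit_one τ)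

variable {L : Type} [Field L] [Algebra ℚ L] [Algebra L ℂ]

/-- Extension of the constants keeps the orders divisible. -/
theorem divN_toC {n : ℕ} {f : V.fld L} (hf : f ≠ 0)
    (h : ∀ v : Place L (V.fld L), (n : ℤ) ∣ v.ord f) : FA.JTorsion.DivN V n (toC V L f) := by
  refine ⟨(map_ne_zero_iff _ (toC V L).injective).2 hf, fun w => ?_⟩
  obtain ⟨P, γ, s, hs, hemb⟩ := exists_emb_of_place w
  rcases exists_place_of_embedding (emb (L := L) P γ) with h' | ⟨v, k, -, h'⟩
  · have h1 := hemb (toC V L f)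
    rw [emb_toC, h' f] at h1
    rw [(mul_eq_zero.1 h1.symm).resolve_left hs.ne']
    exact dvd_zero _
  · obtain ⟨t, ht⟩ := exists_uniformizer v
    have h1 := hemb (toC V L t)
    rw [emb_toC, h' t, ht, mul_one] at h1
    have h2 := hemb (toC V L f)
    rw [emb_toC, h' f, h1, mul_assoc] at h2
    rw [← mul_left_cancel₀ hs.ne' h2]
    exact dvd_mul_of_dvd_right (h v) _

end FA.Carayol

end
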