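import Fermat.Agent.Carayol.Front.Divisible
import Fermat.Agent.LocalDef.Unr

/-!
# The normalised function of a class fixed by inertia

The minimal normalised function in the class of `n D` is fixed by every automorphism of `ℂ`
extending an inertia element, so its coefficients are fixed by inertia.
-/

set_option autoImplicit false
set_option linter.style.haveILetI false
set_option linter.unusedSectionVars false
set_option synthInstance.maxHeartbeats 200000
set_option maxHeartbeats 1600000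

noncomputable section

namespace FA.Carayol

open AlgebraicCurve ModularCurve FA.Level FA.JTorsion FA.LocalDef
open scoped MatrixGroups

local notation "Qb" => AlgebraicClosure ℚ
local notation "GQ" => AlgebraicClosure ℚ ≃ₐ[ℚ] AlgebraicClosure ℚ

variable [Algebra Qb ℂ]

/-- An automorphism of `ℚ̄` extends to `ℂ`. -/
theorem exists_extend_complex (σ : GQ) :
    ∃ σ' : ℂ ≃+* ℂ, ∀ a : Qb, σ' (algebraMap Qb ℂ a) = algebraMap Qb ℂ (σ a) := by
  obtain ⟨ι, v, hv⟩ := exists_isTranscendenceBasis' Qb ℂ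
  obtain ⟨τ, hτ⟩ := FA.Period.exists_ringEquiv_extending v hv
    (MvPolynomial.mapEquiv ι σ.toRingEquiv)
  refine ⟨τ, fun a => ?_⟩
  have h1 := hτ (MvPolynomial.C a)
  rw [show MvPolynomial.mapEquiv ι σ.toRingEquiv (MvPolynomial.C a) = MvPolynomial.C (σ a) by simp,
    MvPolynomial.aeval_C, MvPolynomial.aeval_C] at h1
  exact h1

variable {V : Lvl}

/-- The action on functions commutes with the extension of constants. -/
theorem galC_toC {σ : GQ} {σ' : ℂ ≃+* ℂ}
    (hσ : ∀ a : Qb, σ' (algebraMap Qb ℂ a) = algebraMap Qb ℂ (σ a)) (f : V.fld Qb) :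
    galC V σ' • toC V Qb f = toC V Qb (arithmeticGalois V.F₀ σ • f) := by
  apply Subtype.ext
  rw [coe_galC, coe_toC, coe_toC, coe_arithmeticGalois_smul, coeffMap_coeffMap, coeffMap_coeffMap]
  exact coeffMap_congr (RingHom.ext hσ) _

/-- A class fixed by `σ` gives a fixed class of functions up to `n`-th powers. -/
theorem sameCls_galois {n : ℕ} [NeZero n] {x : Pic0 Qb (V.fld Qb)}
    {D : Divisor.degZero (K := Qb) (F := V.fld Qb)} (hD : Pic0.mk D = x) {f : V.fld Qb}
    (hf : f ≠ 0) (hfD : ∀ v, (n : ℤ) * (D : Divisor Qb (V.fld Qb)) v = v.ord f) {σ : GQ}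
    (hσ : σ • x = x) :
    ∃ (a : Qb) (u : V.fld Qb), a ≠ 0 ∧ u ≠ 0 ∧
      arithmeticGalois V.F₀ σ • f = algebraMap Qb (V.fld Qb) a * f * u ^ n := by
  set g := arithmeticGalois V.F₀ σ
  rw [← hD, galois_smul_pic0_def, SemilinearAut.pic0_smul_mk] at hσ
  have h1 := QuotientAddGroup.eq.1 hσ.symm
  rw [AddSubgroup.mem_addSubgroupOf] at h1
  obtain ⟨u, hu, hud⟩ := h1
  have hgf : g • f ≠ 0 := fun h0 => hf (by simpa using congrArg (g⁻¹ • ·) h0)
  set w : V.fld Qb := (g • f) * (f * u ^ n)⁻¹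
  have hord : ∀ v : Place Qb (V.fld Qb), v.ord (g • f) = v.ord f + n * v.ord u := fun v => by
    have h2 := hud v
    simp only [AddSubgroup.coe_add, NegMemClass.coe_neg, Finsupp.add_apply, Finsupp.neg_apply,
      SemilinearAut.coe_degZeroSMulHom, SemilinearAut.divisor_smul_apply] at h2
    have h3 := SemilinearAut.ord_smul g (g⁻¹ • v) f
    rw [smul_inv_smul] at h3
    rw [h3, ← hfD, ← hfD v, ← mul_add, ← h2]
    ring
  have hw : ∀ v : Place Qb (V.fld Qb), FA.Curve.AtLeast v 0 w := fun v => by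
    refine Or.inr ?_
    rw [v.ord_mul hgf (inv_ne_zero (mul_ne_zero hf (pow_ne_zero n hu))), v.ord_inv,
      v.ord_mul hf (pow_ne_zero n hu), FA.ModField.place_ord_pow, hord]
    ring_nf
    exact le_refl _
  have h4 := FA.Curve.mem_span_of_isConst hw fun _ hg' =>
    FA.Curve.exists_ord_neg (V.isFunctionField Qb) hg'
  rw [Submodule.mem_span_singleton] at h4
  obtain ⟨a, ha⟩ := h4
  rw [Algebra.smul_def, mul_one, eq_mul_inv_iff_mul_eq₀ (mul_ne_zero hf (pow_ne_zero n hu))] at ha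
  exact ⟨a, u, fun h0 => hgf (by rw [← ha, h0, map_zero, zero_mul]), hu, by rw [← ha, mul_assoc]⟩

/-- **The normalised root of a class fixed by inertia has coefficients fixed by inertia.** -/
theorem exists_normal_root {A : ValuationSubring Qb} {n : ℕ} [NeZero n] (x : tors V Qb n)
    (hx : ∀ σ ∈ A.inertiaSubgroupIn ℚ, σ • (x.1 : Pic0 Qb (V.fld Qb)) = x.1) :
    ∃ (f : V.fld ℂ) (H : Mer), f ≠ 0 ∧ H ^ n = theta f ∧
      (∀ γ : V.grp, merSL (γ : SL(2, ℤ)) H = merC (ZMod.stdAddChar (kumFun x γ)) * H) ∧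
      (∀ i, ∃ t ∈ kur A, algebraMap Qb ℂ t = (f : LaurentSeries ℂ).coeff i) ∧
      ∃ g : V.fld Qb, g ≠ 0 ∧ toC V Qb g = f ∧ ∀ v : Place Qb (V.fld Qb), (n : ℤ) ∣ v.ord g := by
  have hn : n ≠ 0 := NeZero.ne n
  obtain ⟨D, h, hD, HW⟩ := exists_witness_of_kumFun x
  obtain ⟨f₁, hf₁, hfD, hh⟩ := HW.div
  have hdiv := divN_toC hf₁ (fun v => Dvd.intro _ (hfD v))
  obtain ⟨f, hs, hf⟩ := exists_isMin hn hdiv
  have halg : ∀ i, ∃ t : Qb, algebraMap Qb ℂ t = (f : LaurentSeries ℂ).coeff i := fun i => by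
    refine mem_range_of_isAlgebraic (isAlgebraic_of_finite_orbit _ ?_)
    refine ((finite_isMin hn).image fun g : V.fld ℂ => (g : LaurentSeries ℂ).coeff i).subset ?_
    rintro _ ⟨σ, rfl⟩
    exact ⟨galC V σ • f, isMin_galC hf σ, rfl⟩
  have hfix : ∀ (σ : GQ), σ ∈ A.inertiaSubgroupIn ℚ → ∀ σ' : ℂ ≃+* ℂ,
      (∀ a : Qb, σ' (algebraMap Qb ℂ a) = algebraMap Qb ℂ (σ a)) → galC V σ' • f = f := by
    intro σ hσ σ' hσ'
    obtain ⟨a, u, ha, hu, hau⟩ := sameCls_galois hD hf₁ hfD (hx σ hσ)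
    have hgal : SameCls V n (toC V Qb f₁) (galC V σ' • toC V Qb f₁) := by
      refine ⟨algebraMap Qb ℂ a, toC V Qb u, (map_ne_zero _).2 ha,
        (map_ne_zero_iff _ (toC V Qb).injective).2 hu, ?_⟩
      rw [galC_toC hσ', hau, map_mul, map_mul, map_pow]
      congr 2
      apply Subtype.ext
      rw [coe_toC]
      show coeffMap (algebraMap Qb ℂ) (algebraMap Qb (LaurentSeries Qb) a) =
        algebraMap ℂ (LaurentSeries ℂ) (algebraMap Qb ℂ a)
      rw [algebraMap_laurentSeries_eq_single, coeffMap_single, algebraMap_laurentSeries_eq_single]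
    exact eq_of_isMin hn (isMin_galC hf σ') hf
      (((hs.gal σ').symm.trans hgal.symm).trans hs)
  obtain ⟨c, g, hc, hg, hfg⟩ := hs
  obtain ⟨d, hd⟩ := IsAlgClosed.exists_pow_nat_eq c (Nat.pos_of_ne_zero hn)
  -- the same function over `ℚ̄`
  choose tc htc using halg
  have hpwo : (Function.support tc).IsPWO :=
    (f : LaurentSeries ℂ).isPWO_support.mono fun i hi h0 => hi (by
      apply (algebraMap Qb ℂ).injective
      rw [htc, h0, map_zero])
  obtain ⟨g₁, hg₁⟩ := exists_toC_of_coeff V (f := f) (s := (⟨tc, hpwo⟩ : LaurentSeries Qb))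
    (HahnSeries.ext (funext htc))
  have hth : theta g₁ = theta f₁ * (merC d * theta g) ^ n := by
    rw [← theta_toC V Qb g₁, hg₁, hfg, map_mul, map_mul, map_pow, theta_algebraMap,
      Algebra.algebraMap_self, RingHom.id_apply, theta_toC, mul_pow, ← map_pow merC, hd]
    ring
  obtain ⟨u, hu⟩ := exists_theta_of_invariant (V := V) hn (x := merC d * theta g) (f := g₁ / f₁)
    (by rw [map_div₀, hth, mul_div_cancel_left₀ _ ((map_ne_zero_iff _ theta.injective).2 hf₁)])
    (fun γ hγ => by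
      rw [map_mul, merSL_theta hγ, show merSL γ (merC d) = merC d from merComp_merC _ d])
  have hg₁u : g₁ = f₁ * u ^ n := theta.injective (by rw [map_mul, map_pow, hu, hth])
  have hu0 : u ≠ 0 := fun h0 => by
    have h1 := hu.symm.trans (by rw [h0, map_zero] : theta u = 0)
    rcases mul_eq_zero.1 h1 with h2 | h2
    · rw [map_eq_zero] at h2
      exact hc (by rw [← hd, h2, zero_pow hn])
    · exact hg ((map_eq_zero_iff _ theta.injective).1 h2)
  refine ⟨f, merC d * h * theta g, ?_, ?_, fun γ => ?_, fun i => ?_, g₁,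
    hg₁u ▸ mul_ne_zero hf₁ (pow_ne_zero n hu0), hg₁, fun v => ?_⟩
  · obtain ⟨k, hk, -⟩ := hf
    exact hk.1.1
  · rw [mul_pow, mul_pow, hh, ← map_pow merC, hd, hfg, map_mul, map_mul, map_pow, theta_algebraMap,
      Algebra.algebraMap_self, RingHom.id_apply, theta_toC]
  · rw [map_mul, map_mul, HW.char γ, merSL_theta γ.2,
      show merSL (γ : SL(2, ℤ)) (merC d) = merC d from merComp_merC _ d]
    ring
  · obtain ⟨t, ht⟩ : ∃ t, algebraMap Qb ℂ t = (f : LaurentSeries ℂ).coeff i := ⟨tc i, htc i⟩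
    refine ⟨t, mem_kur.mpr fun σ hσ => (algebraMap Qb ℂ).injective ?_, ht⟩
    obtain ⟨σ', hσ'⟩ := exists_extend_complex σ
    have h1 := congrArg (fun g : V.fld ℂ => (g : LaurentSeries ℂ).coeff i) (hfix σ hσ σ' hσ')
    simp only [coe_galC, coeffMap_coeff] at h1
    rw [← hσ', ht]
    exact h1
  · rw [hg₁u, v.ord_mul hf₁ (pow_ne_zero n hu0), FA.ModField.place_ord_pow, ← hfD]
    exact dvd_add (dvd_mul_right _ _) (dvd_mul_right _ _)

end FA.Carayol

end
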