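import Fermat.Agent.LocalDef.Unr
import Fermat.Agent.JTorsion.GaloisTors
import Fermat.Agent.Curve.Genus
import Mathlib.LinearAlgebra.LinearIndependent.Lemmas

/-!
# Every order at a place is taken by a function fixed by inertia

A trace over the finite group through which inertia acts, twisted by a constant chosen by the
independence of characters.
-/

set_option autoImplicit false
set_option linter.style.haveILetI false
set_option linter.unusedSectionVars false
set_option synthInstance.maxHeartbeats 200000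
set_option maxHeartbeats 1600000

noncomputable section

namespace FA.Carayol

open AlgebraicCurve ModularCurve FA.Level FA.JTorsion FA.LocalDef FA.ModField FA.Curve

local notation "Qb" => AlgebraicClosure ℚ
local notation "GQ" => AlgebraicClosure ℚ ≃ₐ[ℚ] AlgebraicClosure ℚ

variable (F₀ : IntermediateField ℚ (LaurentSeries ℚ))

/-- The functions of order at least `d` at `v`. -/
def ordSpace {F : Type*} [Field F] [Algebra Qb F] (v : Place Qb F) (d : ℤ) : Submodule Qb F where
  carrier := {f | AtLeast v d f}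
  add_mem' := AtLeast.add
  zero_mem' := atLeast_zero
  smul_mem' a f hf := by rw [Set.mem_ofPred_eq, Algebra.smul_def]; exact hf.smul a

variable {F₀} (hF : FA.Curve.IsFunctionField Qb (laurentBaseChange Qb F₀))

include hF in
/-- **A function with coefficients fixed by inertia with a given order at a given place.** -/
theorem exists_fixed_ord (A : ValuationSubring Qb) (v : Place Qb (laurentBaseChange Qb F₀)) (d : ℤ) :
    ∃ g : laurentBaseChange Qb F₀, g ≠ 0 ∧ v.ord g = d ∧
      ∀ i, ((g : laurentBaseChange Qb F₀) : LaurentSeries Qb).coeff i ∈ kur A := by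
  classical
  set I := A.inertiaSubgroupIn ℚ
  set act := arithmeticGalois (L := Qb) F₀
  obtain ⟨S₁, hS₁⟩ := exists_finset_fix_place hF v
  -- the orbit of the place
  obtain ⟨E₁, hE₁f, hE₁g, hE₁⟩ := exists_normal_layer S₁
  have hres : ∀ (E : IntermediateField ℚ Qb) [FiniteDimensional ℚ E] [IsGalois ℚ E] (σ σ' : GQ),
      resHom E σ = resHom E σ' → ∀ a ∈ E, (σ⁻¹ * σ') a = a := fun E _ _ σ σ' h a ha => by
    have h1 : resHom E (σ⁻¹ * σ') = 1 := by rw [map_mul, map_inv, h, inv_mul_cancel]
    have h2 := resHom_apply E (σ⁻¹ * σ') ⟨a, ha⟩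
    rw [h1] at h2
    exact h2.symm
  set Ω : Finset (Place Qb (laurentBaseChange Qb F₀)) :=
    (Finset.univ : Finset (E₁ ≃ₐ[ℚ] E₁)).image fun τ =>
      if h : ∃ σ ∈ I, resHom E₁ σ = τ then act h.choose • v else v
  have hΩ : ∀ σ ∈ I, act σ • v ∈ Ω := fun σ hσ => by
    refine Finset.mem_image.2 ⟨resHom E₁ σ, Finset.mem_univ _, ?_⟩
    have h : ∃ σ' ∈ I, resHom E₁ σ' = resHom E₁ σ := ⟨σ, hσ, rfl⟩
    rw [dif_pos h]
    have h1 : act (h.choose⁻¹ * σ) • v = v :=
      hS₁ _ fun a ha => hres E₁ _ _ h.choose_spec.2 a (hE₁ a ha)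
    rw [map_mul, map_inv, mul_smul, inv_smul_eq_iff] at h1
    exact h1.symm
  choose t ht using fun w : Place Qb (laurentBaseChange Qb F₀) => exists_uniformizer w
  have ht0 : ∀ w, t w ≠ 0 := fun w h0 => by have := ht w; rw [h0] at this; simp at this
  obtain ⟨y, hy⟩ := exists_approx Ω (fun w => t w ^ d) (d + 1)
  have hord : ∀ w ∈ Ω, y ≠ 0 ∧ w.ord y = d := fun w hw => by
    have ho : w.ord (t w ^ d) = d := by rw [w.ord_zpow, ht, mul_one]
    have h2 := ord_add_eq_left (zpow_ne_zero d (ht0 w))
      (show AtLeast w (w.ord (t w ^ d) + 1) _ from (hy w hw).mono (by rw [ho]))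
    rwa [add_sub_cancel, ho] at h2
  have hv : v ∈ Ω := by
    have := hΩ 1 (one_mem _)
    rwa [map_one, one_smul] at this
  -- the finite group acting on `y`
  obtain ⟨S₂, hS₂⟩ := exists_finset_fix_series F₀ y.2
  obtain ⟨E, hEf, hEg, hE⟩ := exists_normal_layer S₂
  set J := I.map (resHom E)
  let _ : Fintype J := Fintype.ofFinite J
  choose lift hlift hlift' using fun τ : J => (τ.2 : ∃ σ ∈ I, resHom E σ = τ.1)
  have hy' : ∀ σ σ' : GQ, resHom E σ = resHom E σ' → act σ • y = act σ' • y := fun σ σ' h => by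
    have h1 : act (σ⁻¹ * σ') • y = y :=
      Subtype.ext (hS₂ _ fun a ha => hres E σ σ' h a (hE a ha))
    rw [map_mul, map_inv, mul_smul, inv_smul_eq_iff] at h1
    exact h1.symm
  let T : E → laurentBaseChange Qb F₀ := fun c =>
    ∑ τ : J, algebraMap Qb _ (((τ.1 c : E) : Qb)) * act (lift τ) • y
  have hTfix : ∀ c, ∀ ρ ∈ I, act ρ • T c = T c := fun c ρ hρ => by
    let ρJ : J := ⟨resHom E ρ, ρ, hρ, rfl⟩
    simp only [T, Finset.smul_sum, smul_mul']
    refine Fintype.sum_equiv (Equiv.mulLeft ρJ) _ _ fun τ => ?_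
    rw [SemilinearAut.smul_algebraMap, ← mul_smul, ← map_mul]
    congr 1
    · congr 1
      show ρ ((τ.1 c : E) : Qb) = _
      rw [← resHom_apply E ρ (τ.1 c)]
      rfl
    · refine hy' _ _ ?_
      rw [map_mul, hlift', hlift']
      rfl
  have hTd : ∀ c, AtLeast v d (T c) := fun c => atLeast_sum fun τ _ => by
    refine AtLeast.smul (Or.inr (le_of_eq ?_)) _
    have h1 := SemilinearAut.ord_smul (act (lift τ)) ((act (lift τ))⁻¹ • v) y
    rw [smul_inv_smul, ← map_inv] at h1
    rw [h1, (hord _ (hΩ _ (inv_mem (hlift τ)))).2]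
  obtain ⟨c, hc⟩ : ∃ c, T c ∉ ordSpace v (d + 1) := by
    by_contra hno
    push Not at hno
    set R := ordSpace v (d + 1)
    let τ₁ : J := 1
    have h1 : R.mkQ (act (lift τ₁) • y) ≠ 0 := by
      rw [Submodule.mkQ_apply, ne_eq, Submodule.Quotient.mk_eq_zero,
        hy' (lift τ₁) 1 (by rw [hlift', map_one]; rfl), map_one, one_smul]
      intro h
      rcases h with h | h
      · exact (hord v hv).1 h
      · rw [(hord v hv).2] at h; omega
    obtain ⟨φ, hφ⟩ := Module.Projective.exists_dual_ne_zero Qb h1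
    let χ : J → (E →* Qb) := fun τ => (E.val.toRingHom.comp (τ.1 : E →+* E)).toMonoidHom
    have hχ : Function.Injective χ := fun τ τ' h => Subtype.ext (AlgEquiv.ext fun a =>
      Subtype.ext (DFunLike.congr_fun h a))
    have hli := (linearIndependent_monoidHom E Qb).comp χ hχ
    have hsum : ∑ τ : J, φ (R.mkQ (act (lift τ) • y)) •
        (fun a => χ τ a : E → Qb) = 0 := by
      funext a
      have h2 : φ (R.mkQ (T a)) = 0 := by
        rw [Submodule.mkQ_apply, (Submodule.Quotient.mk_eq_zero R).2 (hno a), map_zero]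
      simp only [T, map_sum, ← Algebra.smul_def, map_smul] at h2
      simp only [Finset.sum_apply, Pi.smul_apply, Pi.zero_apply, smul_eq_mul, χ]
      rw [← h2]
      exact Finset.sum_congr rfl fun τ _ => by rw [mul_comm]; rfl
    exact hφ (Fintype.linearIndependent_iff.1 hli _ hsum τ₁)
  have hc0 : T c ≠ 0 := fun h => hc (by rw [h]; exact zero_mem _)
  refine ⟨T c, hc0, ?_, fun i => mem_kur.2 fun ρ hρ => ?_⟩
  · have h1 := (atLeast_iff hc0).1 (hTd c)
    by_contra hne
    exact hc (Or.inr (by omega))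
  · have h1 := congrArg (fun g : laurentBaseChange Qb F₀ => (g : LaurentSeries Qb).coeff i)
      (hTfix c ρ hρ)
    simp only [act, coe_arithmeticGalois_smul, coeffMap_coeff] at h1
    exact h1

end FA.Carayol

end
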